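/-
S25, block ALGCHARTS (architect helper730): FROZEN DEFINITIONS of the chart atlas.

For a curve chart `(B₀, B₁, B₀₁, x, y, e)` the charts of the algebraic Picard functor are indexed
by `(n, q, β, f)`:
* `n : ℕ` a twist, `q : Fin (n d - g) → U₀(k)` auxiliary points (`d = chartDeg`, `g = genus`);
* `β : Fin g → B₀` a chart of the Hilbert functor of `Spec B₀` (helper251: `IsChartIdeal`,
  `RepAlg`, `chartRepEquiv`), `f ∈ RepAlg k B₀ β`; chart ring `Localization.Away f`.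
A gluing datum `G` over `A` lies in the chart iff `G(n)` has a section `s` whose divisor on `U₀`
is `V(I · 𝔮)`, `𝔮 = ∏ ker (qᵢ)`, with `I` a `β`-chart ideal on which `f` is a unit, and which does
not vanish on `E₀ = V(y)` (`InChartC`).  The universal datum over `Localization.Away f` is any
datum with the universal such section (`IsUnivDatum`); `f` is good if one exists.
-/
import Fermat.Agent.S25.DefsAlg
import Fermat.Agent.S25.H10.DegreeDefs
import Fermat.Agent.S25.H251.ChartIdeal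
import Fermat.Agent.S25.H926.AlgChartsFormal

set_option autoImplicit false

universe u

open scoped TensorProduct

namespace Fermat.Agent.S25.Charts

open Fermat.Agent.S25 Fermat.Agent.S25.H10 Fermat.Agent.S25.H251 Fermat.Agent.S25.H926

noncomputable section

variable {k : Type u} [Field k] {B₀ B₁ B₀₁ : Type u} [CommRing B₀] [CommRing B₁] [CommRing B₀₁]
  [Algebra k B₀] [Algebra k B₁] [Algebra k B₀₁] [Algebra B₀ B₀₁] [Algebra B₁ B₀₁]
  [IsScalarTower k B₀ B₀₁] [IsScalarTower k B₁ B₀₁]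

/-! ## Points and divisors of sections -/

/-- The ideal of the relative divisor `Σ qᵢ × Spec A` in `A ⊗ B₀` (with multiplicities). -/
def qIdeal {m : ℕ} (q : Fin m → (B₀ →ₐ[k] k)) (A : Type u) [CommRing A] [Algebra k A] :
    Ideal (A ⊗[k] B₀) :=
  ∏ i, RingHom.ker (epsHom (q i) A).toRingHom

/-- The section `s ∈ Ȟ⁰(G)` has divisor `V(J) ⊆ U₀`: `J · N₀ = R₀ · s₀` on the first chart, and
`s₁` generates `N₁` along `E₀ = V(y)`. -/
def HasDiv (y : B₁) {A : Type u} [CommRing A] [Algebra k A] (G : CurveGD k B₀ B₁ B₀₁ A)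
    (s : G.H0) (J : Ideal (A ⊗[k] B₀)) : Prop :=
  J • (⊤ : Submodule (A ⊗[k] B₀) G.N₀) = Submodule.span (A ⊗[k] B₀) {(s : G.N₀ × G.N₁).1} ∧
    Submodule.span (A ⊗[k] B₁) {(s : G.N₀ × G.N₁).2} ⊔
      Ideal.span {((1 : A) ⊗ₜ[k] y : A ⊗[k] B₁)} • (⊤ : Submodule (A ⊗[k] B₁) G.N₁) = ⊤

/-- Every section of `G` vanishing along `Σ qᵢ` is an `A`-multiple of `s`. -/
def GenProp {m : ℕ} (q : Fin m → (B₀ →ₐ[k] k)) {A : Type u} [CommRing A] [Algebra k A]
    (G : CurveGD k B₀ B₁ B₀₁ A) (s : G.H0) : Prop :=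
  ∀ t : G.H0, (t : G.N₀ × G.N₁).1 ∈ qIdeal q A • (⊤ : Submodule (A ⊗[k] B₀) G.N₀) →
    ∃ a : A, t = a • s

/-! ## The chart condition and the universal datum -/

section Chart

variable (x : B₀) (y : B₁) (hxy : algebraMap B₀ B₀₁ x * algebraMap B₁ B₀₁ y = 1)
  (e : B₁ →ₐ[k] k)

/-- The point of the Hilbert chart `Spec (RepAlg k B₀ β)` defined by a chart ideal. -/
def chartPt {g : ℕ} {β : Fin g → B₀} {A : Type u} [CommRing A] [Algebra k A]
    {I : Ideal (A ⊗[k] B₀)} (hI : IsChartIdeal k β A I) : RepAlg k B₀ β →ₐ[k] A :=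
  (chartRepEquiv k β A).symm ⟨I, hI⟩

/-- The chart ideal of a point of `Spec (Localization.Away f)`. -/
def ptIdeal {g : ℕ} {β : Fin g → B₀} (f : RepAlg k B₀ β) {A : Type u} [CommRing A]
    [Algebra k A] (φ : Localization.Away f →ₐ[k] A) : Ideal (A ⊗[k] B₀) :=
  (chartRepEquiv k β A
    (φ.comp (IsScalarTower.toAlgHom k (RepAlg k B₀ β) (Localization.Away f)))).1

/-- **Intrinsic chart condition**: `G(n)` has a section with divisor `V(I · 𝔮)` on `U₀`, not
vanishing on `E₀`, for a `β`-chart ideal `I` at which `f` is a unit. -/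
def InChartC (n : ℕ) {m : ℕ} (q : Fin m → (B₀ →ₐ[k] k)) {g : ℕ} (β : Fin g → B₀)
    (f : RepAlg k B₀ β) {A : Type u} [CommRing A] [Algebra k A]
    (G : CurveGD k B₀ B₁ B₀₁ A) : Prop :=
  ∃ (I : Ideal (A ⊗[k] B₀)) (hI : IsChartIdeal k β A I), IsUnit (chartPt hI f) ∧
    ∃ s : (twistE x y hxy G n).H0, HasDiv y (twistE x y hxy G n) s (I * qIdeal q A)

/-- The chart condition together with the generation property of the section. -/
def InChartG (n : ℕ) {m : ℕ} (q : Fin m → (B₀ →ₐ[k] k)) {g : ℕ} (β : Fin g → B₀)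
    (f : RepAlg k B₀ β) {A : Type u} [CommRing A] [Algebra k A]
    (G : CurveGD k B₀ B₁ B₀₁ A) : Prop :=
  ∃ (I : Ideal (A ⊗[k] B₀)) (hI : IsChartIdeal k β A I), IsUnit (chartPt hI f) ∧
    ∃ s : (twistE x y hxy G n).H0, HasDiv y (twistE x y hxy G n) s (I * qIdeal q A) ∧
      GenProp q (twistE x y hxy G n) s

/-- `𝒢` over `Localization.Away f` is a universal datum of the chart `(n, q, β, f)`: it is
rigidifiable, of degree zero, and every base change `G` of `𝒢` along `φ` carries a section of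
`G(n)` with divisor `V(I_φ · 𝔮)` which generates the sections vanishing along `Σ qᵢ`. -/
def IsUnivDatum (n : ℕ) {m : ℕ} (q : Fin m → (B₀ →ₐ[k] k)) {g : ℕ} (β : Fin g → B₀)
    (f : RepAlg k B₀ β) (𝒢 : CurveGD k B₀ B₁ B₀₁ (Localization.Away f)) : Prop :=
  𝒢.Rigidifiable e ∧ 𝒢.Deg0 ∧
    ∀ (A : Type u) [CommRing A] [Algebra k A] (φ : Localization.Away f →ₐ[k] A)
      (G : CurveGD k B₀ B₁ B₀₁ A), CurveGD.IsBC φ 𝒢 G →
      ∃ s : (twistE x y hxy G n).H0,
        HasDiv y (twistE x y hxy G n) s (ptIdeal f φ * qIdeal q A) ∧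
          GenProp q (twistE x y hxy G n) s

variable (k B₀ B₁ B₀₁) in
/-- The index type of the atlas. -/
structure ChartIdx where
  n : ℕ
  hn : genus k B₀ B₁ B₀₁ ≤ n * chartDeg k y
  q : Fin (n * chartDeg k y - genus k B₀ B₁ B₀₁) → (B₀ →ₐ[k] k)
  β : Fin (genus k B₀ B₁ B₀₁) → B₀
  f : RepAlg k B₀ β
  good : ∃ 𝒢 : CurveGD k B₀ B₁ B₀₁ (Localization.Away f), IsUnivDatum x y hxy e n q β f 𝒢

end Chart

end

end Fermat.Agent.S25.Charts
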