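/-
S25, block ALGCHARTS (architect helper730): FROZEN INTERFACE = the 8 leaves of the block.

Each `Stmt.X` below is a `Prop` depending on the chart `(x, y, hxy, e)`.  A leaf owner proves
`Stmt.X …` under `(hC : IsCurveChart k B₀ B₁ B₀₁ x y e)` and `[IsAlgClosed k]` (if needed also
from other `Stmt.Y`, from DEGREE `D*`, HILB `H*`, CECH `K*`, GDC).  `Charts/Assembly.lean`
(sorry-free) derives `Stmt.AlgCharts` from the 8 leaves + `BCExists`, `BCComp`, `BCRig`.
Board with proofs: coord/S25-ALGCHARTS.md on origin/helper730.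
-/
import Fermat.Agent.S25.Charts.Defs

set_option autoImplicit false

universe u

open scoped TensorProduct

namespace Fermat.Agent.S25.Charts

open Fermat.Agent.S25 Fermat.Agent.S25.H10 Fermat.Agent.S25.H251 Fermat.Agent.S25.H926

noncomputable section

variable {k : Type u} [Field k] {B₀ B₁ B₀₁ : Type u} [CommRing B₀] [CommRing B₁] [CommRing B₀₁]
  [Algebra k B₀] [Algebra k B₁] [Algebra k B₀₁] [Algebra B₀ B₀₁] [Algebra B₁ B₀₁]
  [IsScalarTower k B₀ B₀₁] [IsScalarTower k B₁ B₀₁]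
  (x : B₀) (y : B₁) (hxy : algebraMap B₀ B₀₁ x * algebraMap B₁ B₀₁ y = 1) (e : B₁ →ₐ[k] k)

namespace Stmt

/-- **L1 TRANSPORT.** An isomorphism `G ≅ G'` carries sections of `G(n)` to sections of
`G'(n)`, preserving divisors and the generation property. -/
def Transport : Prop :=
  ∀ (n : ℕ) (A : Type u) [CommRing A] [Algebra k A] (G G' : CurveGD k B₀ B₁ B₀₁ A),
    G.IsIso G' → ∀ s : (twistE x y hxy G n).H0, ∃ s' : (twistE x y hxy G' n).H0,
      (∀ J : Ideal (A ⊗[k] B₀), HasDiv y (twistE x y hxy G n) s J →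
        HasDiv y (twistE x y hxy G' n) s' J) ∧
      (∀ (m : ℕ) (q : Fin m → (B₀ →ₐ[k] k)), GenProp q (twistE x y hxy G n) s →
        GenProp q (twistE x y hxy G' n) s')

/-- **L2 CANCEL.** Two sections of the same datum with divisors `V(I 𝔮)`, `V(I' 𝔮)` (`I, I'`
chart ideals), each generating the sections vanishing along `Σ qᵢ`, have the same divisor. -/
def Cancel : Prop :=
  ∀ (A : Type u) [CommRing A] [Algebra k A] (G : CurveGD k B₀ B₁ B₀₁ A) (m : ℕ)
    (q : Fin m → (B₀ →ₐ[k] k)) (g : ℕ) (β : Fin g → B₀) (I I' : Ideal (A ⊗[k] B₀)),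
    IsChartIdeal k β A I → IsChartIdeal k β A I' → ∀ s s' : G.H0,
      HasDiv y G s (I * qIdeal q A) → HasDiv y G s' (I' * qIdeal q A) →
      GenProp q G s → GenProp q G s' → I = I'

/-- **L3 UNIQ.** A datum is determined up to isomorphism by the divisor of a section of `G(n)`
(divisor finite over the base, contained in `U₀`). -/
def Uniq : Prop :=
  ∀ (n : ℕ) (A : Type u) [CommRing A] [Algebra k A] (G G' : CurveGD k B₀ B₁ B₀₁ A)
    (J : Ideal (A ⊗[k] B₀)), Module.Finite A ((A ⊗[k] B₀) ⧸ J) →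
    ∀ (s : (twistE x y hxy G n).H0) (s' : (twistE x y hxy G' n).H0),
      HasDiv y (twistE x y hxy G n) s J → HasDiv y (twistE x y hxy G' n) s' J → G.IsIso G'

variable (k B₀) in
/-- **L4 FINITEQUOT.** The divisor `V(I 𝔮)` is finite over the base. -/
def FiniteQuot : Prop :=
  ∀ (A : Type u) [CommRing A] [Algebra k A] (g : ℕ) (β : Fin g → B₀) (I : Ideal (A ⊗[k] B₀)),
    IsChartIdeal k β A I → ∀ (m : ℕ) (q : Fin m → (B₀ →ₐ[k] k)),
      Module.Finite A ((A ⊗[k] B₀) ⧸ (I * qIdeal q A))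

/-- **L5 FIBC.** Fibrewise criterion, intrinsic form. -/
def FibC : Prop :=
  ∀ (n : ℕ) (_ : genus k B₀ B₁ B₀₁ ≤ n * chartDeg k y) (q : Fin (n * chartDeg k y - genus k B₀ B₁ B₀₁) → (B₀ →ₐ[k] k))
    (β : Fin (genus k B₀ B₁ B₀₁) → B₀) (f : RepAlg k B₀ β)
    (A : Type u) [CommRing A] [Algebra k A] (G : CurveGD k B₀ B₁ B₀₁ A),
    G.Rigidifiable e → G.Deg0 →
    (∀ (K : Type u) [Field K] [Algebra k K] (ψ : A →ₐ[k] K) (GK : CurveGD k B₀ B₁ B₀₁ K),
      CurveGD.IsBC ψ G GK → InChartG x y hxy n q β f GK) → InChartC x y hxy n q β f G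

/-- **L6 SPREADC.** Openness of the chart locus, intrinsic form. -/
def SpreadC : Prop :=
  ∀ (n : ℕ) (_ : genus k B₀ B₁ B₀₁ ≤ n * chartDeg k y) (q : Fin (n * chartDeg k y - genus k B₀ B₁ B₀₁) → (B₀ →ₐ[k] k))
    (β : Fin (genus k B₀ B₁ B₀₁) → B₀) (f : RepAlg k B₀ β)
    (A : Type u) [CommRing A] [Algebra k A] (G : CurveGD k B₀ B₁ B₀₁ A),
    G.Rigidifiable e → G.Deg0 →
    ∀ (K : Type u) [Field K] [Algebra k K] (ψ : A →ₐ[k] K) (GK : CurveGD k B₀ B₁ B₀₁ K),
      CurveGD.IsBC ψ G GK → InChartG x y hxy n q β f GK →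
      ∃ a : A, ψ a ≠ 0 ∧
        ∀ (L : Type u) [Field L] [Algebra k L] (θ : A →ₐ[k] L)
          (Gθ : CurveGD k B₀ B₁ B₀₁ L), CurveGD.IsBC θ G Gθ → θ a ≠ 0 →
          InChartC x y hxy n q β f Gθ

/-- **L7 COVERPT.** Over an algebraically closed field every rigidifiable datum of degree zero
has, for suitable `n` (with `g ≤ n d`), `q`, `β`, a section of `G(n)` with divisor `V(I 𝔮)`, `I` a `β`-chart
ideal, generating the sections vanishing along `Σ qᵢ`. -/
def CoverPt : Prop :=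
  ∀ (K : Type u) [Field K] [Algebra k K] [IsAlgClosed K] (G : CurveGD k B₀ B₁ B₀₁ K),
    G.Rigidifiable e → G.degree = 0 →
    ∃ (n : ℕ) (_ : genus k B₀ B₁ B₀₁ ≤ n * chartDeg k y)
      (q : Fin (n * chartDeg k y - genus k B₀ B₁ B₀₁) → (B₀ →ₐ[k] k))
      (β : Fin (genus k B₀ B₁ B₀₁) → B₀) (I : Ideal (K ⊗[k] B₀)) (_ : IsChartIdeal k β K I)
      (s : (twistE x y hxy G n).H0), HasDiv y (twistE x y hxy G n) s (I * qIdeal q K) ∧
        GenProp q (twistE x y hxy G n) s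

/-- **L8 EXISTSGOOD.** Around a field-valued point of the Hilbert chart `Spec (RepAlg k B₀ β)`
carrying a datum with generating section there is a basic open `D(f)` with a universal
datum. -/
def ExistsGood : Prop :=
  ∀ (n : ℕ) (_ : genus k B₀ B₁ B₀₁ ≤ n * chartDeg k y) (q : Fin (n * chartDeg k y - genus k B₀ B₁ B₀₁) → (B₀ →ₐ[k] k))
    (β : Fin (genus k B₀ B₁ B₀₁) → B₀)
    (K : Type u) [Field K] [Algebra k K] (G : CurveGD k B₀ B₁ B₀₁ K)
    (I : Ideal (K ⊗[k] B₀)) (hI : IsChartIdeal k β K I) (s : (twistE x y hxy G n).H0),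
    HasDiv y (twistE x y hxy G n) s (I * qIdeal q K) → GenProp q (twistE x y hxy G n) s →
    ∃ f : RepAlg k B₀ β, IsUnit (chartPt hI f) ∧
      ∃ 𝒢 : CurveGD k B₀ B₁ B₀₁ (Localization.Away f), IsUnivDatum x y hxy e n q β f 𝒢

end Stmt

end

end Fermat.Agent.S25.Charts
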