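/-
S25, block ALGCHARTS (architect helper730): ASSEMBLY (sorry-free).

`Stmt.AlgCharts` from the 8 leaves of `Charts/Stmts.lean` (for every curve chart) and the three
GDC facts of helper926's formal reduction (`BCExists`, `BCComp`, `BCRig`).

* `inChartG_of_inChart`, `inChart_of_inChartC` : the universal datum of a chart represents the
  intrinsic chart condition (`UNIQ` + `FINITEQUOT` + existence of base changes);
* `chartAtlas` : the `ChartAtlas` of helper926 (`H926/AlgChartsFormal.lean`);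
* `algCharts_of_stmts`.
-/
import Fermat.Agent.S25.Charts.Stmts
import Fermat.Agent.S25.H205.GDCBasic

set_option autoImplicit false

universe u

open scoped TensorProduct

namespace Fermat.Agent.S25.Charts

open Fermat.Agent.S25 Fermat.Agent.S25.H10 Fermat.Agent.S25.H251 Fermat.Agent.S25.H926

noncomputable section

variable {k : Type u} [Field k] {B₀ B₁ B₀₁ : Type u} [CommRing B₀] [CommRing B₁] [CommRing B₀₁]
  [Algebra k B₀] [Algebra k B₁] [Algebra k B₀₁] [Algebra B₀ B₀₁] [Algebra B₁ B₀₁]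
  [IsScalarTower k B₀ B₀₁] [IsScalarTower k B₁ B₀₁]

/-- A ring which is finite over `k[x]` is of finite type over `k`. -/
theorem finiteType_of_finite_aeval {B : Type u} [CommRing B] [Algebra k B] (x : B)
    (h : (Polynomial.aeval x : Polynomial k →ₐ[k] B).Finite) : Algebra.FiniteType k B := by
  have h1 : (Polynomial.aeval x : Polynomial k →ₐ[k] B).toRingHom.FiniteType :=
    RingHom.FiniteType.of_finite h
  have h2 : (algebraMap k (Polynomial k)).FiniteType :=
    RingHom.finiteType_algebraMap.2 inferInstance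
  have h3 := h1.comp h2
  have h4 : (Polynomial.aeval x : Polynomial k →ₐ[k] B).toRingHom.comp
      (algebraMap k (Polynomial k)) = algebraMap k B := by
    ext c
    simp
  rw [h4] at h3
  exact RingHom.finiteType_algebraMap.1 h3

/-! ### Points of the chart ring -/

section Points

variable {g : ℕ} {β : Fin g → B₀} (f : RepAlg k B₀ β) {A : Type u} [CommRing A] [Algebra k A]

theorem ptIdeal_isChartIdeal (φ : Localization.Away f →ₐ[k] A) :
    IsChartIdeal k β A (ptIdeal f φ) :=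
  (chartRepEquiv k β A
    (φ.comp (IsScalarTower.toAlgHom k (RepAlg k B₀ β) (Localization.Away f)))).2

theorem chartPt_ptIdeal (φ : Localization.Away f →ₐ[k] A) :
    chartPt (ptIdeal_isChartIdeal f φ) =
      φ.comp (IsScalarTower.toAlgHom k (RepAlg k B₀ β) (Localization.Away f)) := by
  unfold chartPt
  rw [Equiv.symm_apply_eq]
  rfl

theorem isUnit_chartPt_ptIdeal (φ : Localization.Away f →ₐ[k] A) :
    IsUnit (chartPt (ptIdeal_isChartIdeal f φ) f) := by
  rw [chartPt_ptIdeal]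
  exact (IsLocalization.Away.algebraMap_isUnit (S := Localization.Away f) f).map φ

theorem eq_of_ptIdeal_eq (φ ψ : Localization.Away f →ₐ[k] A)
    (h : ptIdeal f φ = ptIdeal f ψ) : φ = ψ := by
  have h1 : chartRepEquiv k β A
      (φ.comp (IsScalarTower.toAlgHom k (RepAlg k B₀ β) (Localization.Away f))) =
      chartRepEquiv k β A
      (ψ.comp (IsScalarTower.toAlgHom k (RepAlg k B₀ β) (Localization.Away f))) :=
    Subtype.ext h
  have h2 := (chartRepEquiv k β A).injective h1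
  have h3 : (φ : Localization.Away f →+* A) = (ψ : Localization.Away f →+* A) := by
    apply IsLocalization.ringHom_ext (Submonoid.powers f)
    ext r
    exact DFunLike.congr_fun h2 r
  exact AlgHom.coe_ringHom_injective h3

/-- The point of `Spec (Localization.Away f)` defined by a chart ideal at which `f` is a unit. -/
theorem exists_pt_of_isUnit {I : Ideal (A ⊗[k] B₀)} (hI : IsChartIdeal k β A I)
    (hu : IsUnit (chartPt hI f)) :
    ∃ φ : Localization.Away f →ₐ[k] A, ptIdeal f φ = I := by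
  have hunits : ∀ z : Submonoid.powers f, IsUnit (chartPt hI (z : RepAlg k B₀ β)) := by
    rintro ⟨_, n, rfl⟩
    simpa using hu.pow n
  let φ : Localization.Away f →ₐ[k] A :=
    IsLocalization.liftAlgHom (M := Submonoid.powers f) (f := chartPt hI) hunits
  refine ⟨φ, ?_⟩
  have hφ : φ.comp (IsScalarTower.toAlgHom k (RepAlg k B₀ β) (Localization.Away f)) =
      chartPt hI := by
    ext r
    simp [φ]
  unfold ptIdeal
  rw [hφ]
  unfold chartPt
  rw [Equiv.apply_symm_apply]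

end Points

/-! ### The universal datum represents the intrinsic chart condition -/

section Char

variable {x : B₀} {y : B₁} {hxy : algebraMap B₀ B₀₁ x * algebraMap B₁ B₀₁ y = 1}
  {e : B₁ →ₐ[k] k} {n m g : ℕ} {q : Fin m → (B₀ →ₐ[k] k)} {β : Fin g → B₀}
  {f : RepAlg k B₀ β} {𝒢 : CurveGD k B₀ B₁ B₀₁ (Localization.Away f)}
  {A : Type u} [CommRing A] [Algebra k A] {G : CurveGD k B₀ B₁ B₀₁ A}

theorem inChartG_of_inChart (h𝒢 : IsUnivDatum x y hxy e n q β f 𝒢) (h : InChart 𝒢 G) :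
    InChartG x y hxy n q β f G := by
  obtain ⟨φ, hφ⟩ := h
  obtain ⟨s, hs, hgs⟩ := h𝒢.2.2 A φ G hφ
  exact ⟨ptIdeal f φ, ptIdeal_isChartIdeal f φ, isUnit_chartPt_ptIdeal f φ, s, hs, hgs⟩

theorem InChartG.inChartC (h : InChartG x y hxy n q β f G) : InChartC x y hxy n q β f G := by
  obtain ⟨I, hI, hu, s, hs, -⟩ := h
  exact ⟨I, hI, hu, s, hs⟩

theorem inChart_of_inChartC (hEx : BCExists k B₀ B₁ B₀₁)
    (hUniq : Stmt.Uniq (k := k) x y hxy) (hFin : Stmt.FiniteQuot k B₀)
    (h𝒢 : IsUnivDatum x y hxy e n q β f 𝒢) (h : InChartC x y hxy n q β f G) :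
    InChart 𝒢 G := by
  obtain ⟨I, hI, hu, s, hs⟩ := h
  obtain ⟨φ, hφI⟩ := exists_pt_of_isUnit f hI hu
  obtain ⟨G', hG'⟩ := hEx _ A φ 𝒢
  obtain ⟨s', hs', -⟩ := h𝒢.2.2 A φ G' hG'
  rw [hφI] at hs'
  have hiso : G'.IsIso G := hUniq n A G' G (I * qIdeal q A) (hFin A g β I hI m q) s' s hs' hs
  exact ⟨φ, H205.isBC_of_isIso_right hG' hiso⟩

theorem inChartG_of_inChartC (hEx : BCExists k B₀ B₁ B₀₁)
    (hUniq : Stmt.Uniq (k := k) x y hxy) (hFin : Stmt.FiniteQuot k B₀)
    (h𝒢 : IsUnivDatum x y hxy e n q β f 𝒢) (h : InChartC x y hxy n q β f G) :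
    InChartG x y hxy n q β f G :=
  inChartG_of_inChart h𝒢 (inChart_of_inChartC hEx hUniq hFin h𝒢 h)

end Char

/-! ### The atlas -/

variable {x : B₀} {y : B₁} {e : B₁ →ₐ[k] k}

/-- The chart atlas from the leaves. -/
def chartAtlas (hC : IsCurveChart k B₀ B₁ B₀₁ x y e) (hEx : BCExists k B₀ B₁ B₀₁)
    (hT : Stmt.Transport (k := k) x y hC.mul_eq_one)
    (hCancel : Stmt.Cancel (k := k) (B₀ := B₀) (B₀₁ := B₀₁) y)
    (hUniq : Stmt.Uniq (k := k) x y hC.mul_eq_one) (hFin : Stmt.FiniteQuot k B₀)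
    (hFib : Stmt.FibC (k := k) x y hC.mul_eq_one e)
    (hSpread : Stmt.SpreadC (k := k) x y hC.mul_eq_one e)
    (hCover : Stmt.CoverPt (k := k) x y hC.mul_eq_one e)
    (hGood : Stmt.ExistsGood (k := k) x y hC.mul_eq_one e) : ChartAtlas k B₀ B₁ B₀₁ e where
  ι := ChartIdx k B₀ B₁ B₀₁ x y hC.mul_eq_one e
  R i := Localization.Away i.f
  finiteType i := by
    have h0 : Algebra.FiniteType k B₀ := finiteType_of_finite_aeval x hC.finite₀
    have h1 : Algebra.FiniteType k (RepAlg k B₀ i.β) := RepAlg.finiteType k i.β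
    infer_instance
  datum i := i.good.choose
  rig i := i.good.choose_spec.1
  deg0 i := i.good.choose_spec.2.1
  inj := by
    intro i A _ _ φ ψ G G' hφ hψ hiso
    obtain ⟨s, hs, hgs⟩ := i.good.choose_spec.2.2 A φ G hφ
    obtain ⟨s', hs', hgs'⟩ := i.good.choose_spec.2.2 A ψ G' hψ
    obtain ⟨s'', hs'', hgs''⟩ := hT i.n A G G' hiso s
    have h := hCancel A (twistE x y hC.mul_eq_one G' i.n) _ i.q _ i.β (ptIdeal i.f φ)
      (ptIdeal i.f ψ) (ptIdeal_isChartIdeal i.f φ) (ptIdeal_isChartIdeal i.f ψ) s'' s'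
      (hs'' _ hs) hs' (hgs'' _ i.q hgs) hgs'
    exact eq_of_ptIdeal_eq i.f φ ψ h
  fib := by
    intro i A _ _ G hG hG0 h
    refine inChart_of_inChartC hEx hUniq hFin i.good.choose_spec ?_
    refine hFib i.n i.hn i.q i.β i.f A G hG hG0 ?_
    intro K _ _ ψ GK hψ
    exact inChartG_of_inChart i.good.choose_spec (h K ψ GK hψ)
  spread := by
    intro i A _ _ G hG hG0 K _ _ ψ GK hψ hin
    obtain ⟨a, ha, hall⟩ := hSpread i.n i.hn i.q i.β i.f A G hG hG0 K ψ GK hψ
      (inChartG_of_inChart i.good.choose_spec hin)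
    refine ⟨a, ha, ?_⟩
    intro L _ _ θ Gθ hθ hθa
    exact inChart_of_inChartC hEx hUniq hFin i.good.choose_spec (hall L θ Gθ hθ hθa)
  cover := by
    intro K _ _ _ G hG hdeg
    obtain ⟨n, hn, q, β, I, hI, s, hs, hgs⟩ := hCover K G hG hdeg
    obtain ⟨f, hu, hex⟩ := hGood n hn q β K G I hI s hs hgs
    exact ⟨⟨n, hn, q, β, f, hex⟩,
      inChart_of_inChartC hEx hUniq hFin hex.choose_spec ⟨I, hI, hu, s, hs⟩⟩

/-- **ALGCHARTS from the 8 leaves.** -/
theorem algCharts_of_stmts (hEx : BCExists k B₀ B₁ B₀₁) (hComp : BCComp k B₀ B₁ B₀₁)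
    (hRig : ∀ e : B₁ →ₐ[k] k, BCRig k B₁ (B₀ := B₀) (B₀₁ := B₀₁) e)
    (hFin : Stmt.FiniteQuot k B₀)
    (h : ∀ (x : B₀) (y : B₁) (e : B₁ →ₐ[k] k) (hC : IsCurveChart k B₀ B₁ B₀₁ x y e),
      Stmt.Transport (k := k) x y hC.mul_eq_one ∧
        Stmt.Cancel (k := k) (B₀ := B₀) (B₀₁ := B₀₁) y ∧
        Stmt.Uniq (k := k) x y hC.mul_eq_one ∧
        Stmt.FibC (k := k) x y hC.mul_eq_one e ∧ Stmt.SpreadC (k := k) x y hC.mul_eq_one e ∧
        Stmt.CoverPt (k := k) x y hC.mul_eq_one e ∧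
        Stmt.ExistsGood (k := k) x y hC.mul_eq_one e) :
    Fermat.Agent.S25.Stmt.AlgCharts k B₀ B₁ B₀₁ :=
  algCharts_of_atlas hEx hComp hRig (fun x y e hC =>
    ⟨chartAtlas hC hEx (h x y e hC).1 (h x y e hC).2.1 (h x y e hC).2.2.1 hFin
      (h x y e hC).2.2.2.1 (h x y e hC).2.2.2.2.1 (h x y e hC).2.2.2.2.2.1
      (h x y e hC).2.2.2.2.2.2⟩)

end

end Fermat.Agent.S25.Charts
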